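/-
GATE-B / CASE A / node A5 (helper56): the PLUG of `GB/A/A5/WCopy.lean` into helper28's interface
`GB/A/FP.lean`:

  `abHyp_of_k1Stmt : K1Stmt A m → AbHyp h A m (kumHecke (N' q) S m hζ (aeval (TfamH hMS) P))`

for every integer polynomial `P` in the `T_ℓ` (`ℓ ∉ S`) with `P(T^{N'}) = 0` (the old-killer).  So
node A5 (`AbHyp`) is reduced to the single statement `K1Stmt` (helper42's L3 conclusion).
-/
import Mathlib
import Fermat.Agent.GB.A.FP
import Fermat.Agent.GB.A.A5.WCopy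

set_option autoImplicit false

noncomputable section

namespace Fermat.Agent.GB.A.A5.AbHypPlug

open AlgebraicCurve IsLocalRing
open Fermat.Agent.GJ Fermat.Agent.GJ.KumGroup Fermat.Agent.GJ.Kum.KumType
open Fermat.Agent.GJ.J1 Fermat.Agent.GJ.J1.Val
open Fermat.Agent.GK.UqKronecker Fermat.Agent.GK.New Fermat.Agent.GK.AL
open Fermat.Agent.GK.Tate.KumHecke
open Fermat.Agent.GB.A.FP Fermat.Agent.GB.A.A5.WCopy

variable {N' q : ℕ} [NeZero N'] [NeZero q] (h : ExactDvd q (N' * q))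
  (A : ValuationSubring Kb) (S : Finset ℕ) (m : ℕ) [NeZero m] {ζ : ℂ}

/-- **A5 from K1**: helper28's `AbHyp` for the old-killer `t = P(T^{N' q})`, `P(T^{N'}) = 0`. -/
theorem abHyp_of_k1Stmt (hK1 : K1Stmt A m (N' := N') (q := q)) (hζ : IsPrimitiveRoot ζ m)
    (hN'S : ∀ r : ℕ, r.Prime → r ∣ N' → r ∈ S) (hMS : ∀ r : ℕ, r.Prime → r ∣ N' * q → r ∈ S)
    (hmS : ∀ r : ℕ, r.Prime → r ∣ m → r ∈ S)
    (P : MvPolynomial (PrimeIdx S) ℤ)
    (hP : MvPolynomial.aeval (TfamH (N' := N') (S := S) hN'S) P = 0) :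
    AbHyp h A m (kumHecke (N' * q) (↑S : Set ℕ) m hζ (MvPolynomial.aeval (TfamH hMS) P)) := by
  intro u hu hr1 hr2
  refine abelian_part_dies_of_k1Stmt h A S m hK1 hζ hN'S hMS hmS u hu.1.1 hu.2.1 ?_ ?_
    (fun Q => hr1 Q) (fun Q => hr2 Q) P hP
  · exact (redUnit₁ hu).ne_zero
  · exact (redUnit₂ hu).ne_zero

end Fermat.Agent.GB.A.A5.AbHypPlug
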