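/-
GATE-B / CASE A / node A5, leaf L4 (helper56; split of helper42, board 5187).

**The Hecke operators `T_ℓ` preserve `ker r₁` (and `ker r₂`).**

In unit language (`GK/UqKronecker.lean`): a unit `u` of `F_N = ℚ̄(X₀(N))` is `IsCPrin` for the Gauss
valuation `w₁` attached to a valuation subring `A` of `ℚ̄` when it is a nonzero constant times a
principal unit.  The multiplicative Hecke operator `heckeNorm ℓ u = u(q^ℓ) · ∏_b u(ζ^b q^{1/ℓ})`
is defined on Laurent series over ANY commutative ring, is multiplicative and commutes with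
coefficientwise ring homomorphisms (`coeffMap_heckeNorm`), so it carries a Gauss fraction
`u · h = c · g` (`g, h ∈ A((q))`, `g~ = h~ ≠ 0`) to the Gauss fraction
`T u · T h = c^{ℓ+1} · T g` with `(T g)~ = T (g~) = T (h~) = (T h)~ ≠ 0`.  No hypothesis on `ℓ`
versus the residue characteristic of `A`, none on `ℓ` versus `N` (for the series statement).

* `normL_ne_zero`, `heckeNorm_ne_zero'` : nonvanishing over a field;
* `isCPrin_heckeNorm` (generic `HasGaussFrac`), `isPrin_heckeNorm`;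
* `isCPrin_heckeNormSeries` : the `F_N` statement in helper42's spelling;
* `kumTl_mem_kerRed`, `kumTl_mem_kerRedW`, `kumTl_mem_kerRed₂` : `T_ℓ (ker r) ⊂ ker r`;
* `kumHecke_aeval_mem_kerRed`, `kumHecke_aeval_mem_kerRed₂`, `kumHecke_aeval_mem_inf` :
  every integer polynomial in the `T_ℓ` (`ℓ ∉ S`) preserves `ker r₁`, `ker r₂`, `ker r₁ ⊓ ker r₂`.
-/
import Mathlib
import Fermat.Agent.GK.UqKroneckerU
import Fermat.Agent.GK.New.KillerDies

set_option autoImplicit false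

noncomputable section

namespace Fermat.Agent.GB.A.A5.HeckeKerRed

open HahnSeries ModularCurve IsLocalRing
open Fermat.Agent.GJ.J1 Fermat.Agent.GJ.J1.Val Fermat.Agent.GJ.Kum Fermat.Agent.GJ.KumGroup
open Fermat.Agent.GJ.Kum.KumType
open Fermat.Agent.GK.UqKronecker Fermat.Agent.GK.UQ Fermat.Agent.GK.New
open Fermat.Agent.GK.Tate.KumHecke

/-! ### nonvanishing of the norms over a field -/

section Field

variable {k : Type*} [Field k] (ℓ : ℕ) [NeZero ℓ]

theorem normL_ne_zero {u : LaurentSeries k} (hu : u ≠ 0) : normL ℓ u ≠ 0 := by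
  have h1 : IsUnit u := isUnit_iff_ne_zero.mpr hu
  exact (h1.map (normLHom (R := k) ℓ)).ne_zero

theorem heckeNorm_ne_zero' {u : LaurentSeries k} (hu : u ≠ 0) : heckeNorm ℓ u ≠ 0 :=
  heckeNorm_ne_zero ℓ (normL_ne_zero ℓ hu) hu

end Field

/-! ### the generic statement -/

section Generic

variable {L : Type*} [Field L] {A : ValuationSubring L}
  {F : IntermediateField L (LaurentSeries L)} {hGF : HasGaussFrac A F}
  (ℓ : ℕ) [NeZero ℓ]

theorem heckeNorm_single_zero (c : L) :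
    heckeNorm ℓ (HahnSeries.single 0 c : LaurentSeries L) = HahnSeries.single 0 (c ^ (ℓ + 1)) := by
  have h := heckeNorm_C (R := L) ℓ c
  rwa [HahnSeries.C_apply, HahnSeries.C_apply] at h

/-- **the Hecke norm of a constant times a principal unit is one** (Gauss valuation of any field
of Laurent series with the Gauss fraction property). -/
theorem isCPrin_heckeNorm {u Tu : F} (hu : IsCPrin hGF u)
    (hT : (Tu : LaurentSeries L) = heckeNorm ℓ (u : LaurentSeries L)) : IsCPrin hGF Tu := by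
  obtain ⟨c, g, h, hc, hh, hz, hgh⟩ := isCPrin_iff_exists_frac.mp hu
  refine isCPrin_iff_exists_frac.mpr
    ⟨c ^ (ℓ + 1), heckeNorm ℓ g, heckeNorm ℓ h, pow_ne_zero _ hc, ?_, ?_, ?_⟩
  · rw [rd, coeffMap_heckeNorm]
    exact heckeNorm_ne_zero' ℓ hh
  · have h1 := congrArg (heckeNorm ℓ) hz
    rw [heckeNorm_mul, heckeNorm_mul, heckeNorm_single_zero] at h1
    rw [hT, emb, coeffMap_heckeNorm, coeffMap_heckeNorm]
    exact h1
  · rw [rd, coeffMap_heckeNorm, coeffMap_heckeNorm]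
    exact congrArg (heckeNorm ℓ) hgh

/-- the Hecke norm of a principal unit is a principal unit -/
theorem isPrin_heckeNorm {u Tu : F} (hu : IsPrin hGF u)
    (hT : (Tu : LaurentSeries L) = heckeNorm ℓ (u : LaurentSeries L)) : IsPrin hGF Tu := by
  obtain ⟨g, h, hh, hz, hgh⟩ := isPrin_iff_exists_frac.mp hu
  refine isPrin_iff_exists_frac.mpr ⟨heckeNorm ℓ g, heckeNorm ℓ h, ?_, ?_, ?_⟩
  · rw [rd, coeffMap_heckeNorm]
    exact heckeNorm_ne_zero' ℓ hh
  · have h1 := congrArg (heckeNorm ℓ) hz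
    rw [heckeNorm_mul] at h1
    rw [hT, emb, coeffMap_heckeNorm, coeffMap_heckeNorm]
    exact h1
  · rw [rd, coeffMap_heckeNorm, coeffMap_heckeNorm]
    exact congrArg (heckeNorm ℓ) hgh

end Generic

/-! ### the modular function field -/

section Concrete

variable {N : ℕ} [NeZero N] {A : ValuationSubring Qb}

/-- **L4, unit form** (helper42 5187): `ℓ ≥ 1` any, `u` a constant times a principal unit of the
Gauss valuation of `F_N` at `A`, `Tu ∈ F_N` with `q`-expansion `heckeNormSeries ℓ u`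
⟹ `Tu` is a constant times a principal unit. -/
theorem isCPrin_heckeNormSeries (ℓ : ℕ) [NeZero ℓ] {u Tu : FK N}
    (hu : IsCPrin (hasGaussFrac_bar N A) u)
    (hT : (Tu : LaurentSeries Qb) = heckeNormSeries ℓ (u : LaurentSeries Qb)) :
    IsCPrin (hasGaussFrac_bar N A) Tu :=
  isCPrin_heckeNorm ℓ hu hT

variable (m : ℕ)

/-- **`T_ℓ (ker r₁) ⊂ ker r₁`** on `Kum_m(F_N)`, `ℓ ∤ N` prime (any `A`, any `m`). -/
theorem kumTl_mem_kerRed {ℓ : ℕ} (hℓ : ℓ.Prime) (hℓN : ¬ ℓ ∣ N)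
    {x : Additive (Kum Qb (FK N) m)} (hx : x ∈ kerRed N A m) :
    kumTl N m hℓ hℓN x ∈ kerRed N A m := by
  have : NeZero ℓ := ⟨hℓ.ne_zero⟩
  obtain ⟨u, hu, rfl⟩ := mem_kerRed.mp hx
  refine mem_kerRed.mpr ⟨⟨heckeUnits (Fermat.Agent.GJ.Kum.KumGate.hnMemHyp N hℓ hℓN) u,
    heckeUnits_mem _ (Fermat.Agent.GJ.Kum.KumGate.hnDivHyp N m hℓ hℓN) u u.2⟩, ?_, rfl⟩
  exact isCPrin_heckeNormSeries ℓ hu rfl

/-- **`T_ℓ (ker (r₁ ∘ W)) ⊂ ker (r₁ ∘ W)`** for an automorphism `W` of `F_N` over `ℚ̄` commuting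
with the Galois action (so that it commutes with `T_ℓ` by Eichler–Shimura), `ℓ ∤ N m`. -/
theorem kumTl_mem_kerRedW (hm : 0 < m) (W : FK N ≃ₐ[Qb] FK N)
    (hW : ∀ (σ : Qb ≃ₐ[ℚ] Qb) x, W (gal N σ x) = gal N σ (W x))
    {ℓ : ℕ} (hℓ : ℓ.Prime) (hℓNm : ¬ ℓ ∣ N * m)
    {x : Additive (Kum Qb (FK N) m)} (hx : x ∈ kerRedW N A (W : FK N ≃+* FK N) m) :
    kumTl N m hℓ (fun h => hℓNm (Dvd.dvd.mul_right h m)) x ∈
      kerRedW N A (W : FK N ≃+* FK N) m := by
  rw [mem_kerRedW_iff] at hx ⊢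
  have hcomm := TEnd_comm_of_gal_comm N m hm hℓ hℓNm (autEnd W m)
    (fun σ => LinearMap.ext fun y => autEnd_comm_gal W (hW σ) m y)
  have h1 := LinearMap.congr_fun hcomm x
  rw [Module.End.mul_apply, Module.End.mul_apply] at h1
  rw [h1]
  exact kumTl_mem_kerRed m hℓ _ hx

/-- **`T_ℓ (ker r₂) ⊂ ker r₂`**, `r₂ = r₁ ∘ W_q` (Atkin–Lehner at `q ∥ N`), `ℓ ∤ N m`. -/
theorem kumTl_mem_kerRed₂ (hm : 0 < m) {q : ℕ} (h : Fermat.Agent.GK.AL.ExactDvd q N)
    {ℓ : ℕ} (hℓ : ℓ.Prime) (hℓNm : ¬ ℓ ∣ N * m)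
    {x : Additive (Kum Qb (FK N) m)} (hx : x ∈ kerRed₂ h A m) :
    kumTl N m hℓ (fun h' => hℓNm (Dvd.dvd.mul_right h' m)) x ∈ kerRed₂ h A m :=
  kumTl_mem_kerRedW m hm _ (fun σ x => wAut_comm_gal h σ x) hℓ hℓNm hx

end Concrete

/-! ### an abstract stability lemma -/

section Abstract

variable {σ : Type*} {B R X : Type*} [CommRing B] [Semiring R] [AddCommGroup X] [Module R X]

/-- a subgroup stable under the generators of a commutative ring action is stable under every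
integer polynomial in the generators -/
theorem aeval_mem_of_stable (act : B →+* Module.End R X) (a : σ → B) (H : AddSubgroup X)
    (hH : ∀ i x, x ∈ H → act (a i) x ∈ H) (P : MvPolynomial σ ℤ) {x : X} (hx : x ∈ H) :
    act (MvPolynomial.aeval a P) x ∈ H := by
  induction P using MvPolynomial.induction_on generalizing x with
  | C z =>
    rw [MvPolynomial.aeval_C, eq_intCast, _root_.map_intCast]
    have h1 : ((z : Module.End R X) x) = z • x := by
      rw [Module.End.intCast_apply]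
    rw [h1]
    exact H.zsmul_mem hx z
  | add p q hp hq =>
    rw [_root_.map_add, _root_.map_add, LinearMap.add_apply]
    exact H.add_mem (hp hx) (hq hx)
  | mul_X p i hp =>
    rw [_root_.map_mul, _root_.map_mul, MvPolynomial.aeval_X, Module.End.mul_apply]
    exact hp (hH i x hx)

end Abstract

/-! ### integer polynomials in the `T_ℓ`, `ℓ ∉ S` -/

section Poly

variable {N : ℕ} [NeZero N] {A : ValuationSubring Qb} (S : Finset ℕ) (m : ℕ) [NeZero m] {ζ : ℂ}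

/-- a subgroup of `Kum_m(F_N)` stable under all `T_ℓ`, `ℓ ∉ S`, is stable under every integer
polynomial in them (acting through `kumHecke`). -/
theorem kumHecke_aeval_mem_of_stable (hζ : IsPrimitiveRoot ζ m)
    (hNS : ∀ q : ℕ, q.Prime → q ∣ N → q ∈ S)
    (H : AddSubgroup (Additive (Kum Qb (FK N) m)))
    (hH : ∀ (i : PrimeIdx S) (x : Additive (Kum Qb (FK N) m)), x ∈ H →
      kumTl N m i.2.1 (PrimeIdx.not_dvd hNS i) x ∈ H)
    (P : MvPolynomial (PrimeIdx S) ℤ) {x : Additive (Kum Qb (FK N) m)} (hx : x ∈ H) :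
    kumHecke N (↑S : Set ℕ) m hζ (MvPolynomial.aeval (TfamH hNS) P) x ∈ H := by
  refine aeval_mem_of_stable (kumHecke N (↑S : Set ℕ) m hζ) (TfamH hNS) H (fun i y hy => ?_) P hx
  rw [kumHecke_TfamH S m hζ hNS i]
  exact hH i y hy

/-- **every integer polynomial in the `T_ℓ` (`ℓ ∉ S ⊇ primes of N`) preserves `ker r₁`.** -/
theorem kumHecke_aeval_mem_kerRed (hζ : IsPrimitiveRoot ζ m)
    (hNS : ∀ q : ℕ, q.Prime → q ∣ N → q ∈ S) (P : MvPolynomial (PrimeIdx S) ℤ)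
    {x : Additive (Kum Qb (FK N) m)} (hx : x ∈ kerRed N A m) :
    kumHecke N (↑S : Set ℕ) m hζ (MvPolynomial.aeval (TfamH hNS) P) x ∈ kerRed N A m :=
  kumHecke_aeval_mem_of_stable S m hζ hNS _
    (fun i _ hy => kumTl_mem_kerRed m i.2.1 (PrimeIdx.not_dvd hNS i) hy) P hx

/-- **every integer polynomial in the `T_ℓ` (`ℓ ∉ S ⊇ primes of N m`) preserves `ker r₂`.** -/
theorem kumHecke_aeval_mem_kerRed₂ (hζ : IsPrimitiveRoot ζ m)
    (hNS : ∀ q : ℕ, q.Prime → q ∣ N → q ∈ S) (hmS : ∀ q : ℕ, q.Prime → q ∣ m → q ∈ S)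
    {q : ℕ} (h : Fermat.Agent.GK.AL.ExactDvd q N) (P : MvPolynomial (PrimeIdx S) ℤ)
    {x : Additive (Kum Qb (FK N) m)} (hx : x ∈ kerRed₂ h A m) :
    kumHecke N (↑S : Set ℕ) m hζ (MvPolynomial.aeval (TfamH hNS) P) x ∈ kerRed₂ h A m := by
  have hm : 0 < m := Nat.pos_of_ne_zero (NeZero.ne m)
  refine kumHecke_aeval_mem_of_stable S m hζ hNS _ (fun i y hy => ?_) P hx
  have hnd : ¬ i.1 ∣ N * m := by
    intro hd
    rcases (Nat.Prime.dvd_mul i.2.1).mp hd with hd | hd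
    · exact i.2.2 (hNS _ i.2.1 hd)
    · exact i.2.2 (hmS _ i.2.1 hd)
  exact kumTl_mem_kerRed₂ m hm h i.2.1 hnd hy

/-- both at once: `P(T) (ker r₁ ⊓ ker r₂) ⊂ ker r₁ ⊓ ker r₂`. -/
theorem kumHecke_aeval_mem_inf (hζ : IsPrimitiveRoot ζ m)
    (hNS : ∀ q : ℕ, q.Prime → q ∣ N → q ∈ S) (hmS : ∀ q : ℕ, q.Prime → q ∣ m → q ∈ S)
    {q : ℕ} (h : Fermat.Agent.GK.AL.ExactDvd q N) (P : MvPolynomial (PrimeIdx S) ℤ)
    {x : Additive (Kum Qb (FK N) m)} (hx : x ∈ kerRed N A m ⊓ kerRed₂ h A m) :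
    kumHecke N (↑S : Set ℕ) m hζ (MvPolynomial.aeval (TfamH hNS) P) x ∈
      kerRed N A m ⊓ kerRed₂ h A m :=
  ⟨kumHecke_aeval_mem_kerRed S m hζ hNS P hx.1, kumHecke_aeval_mem_kerRed₂ S m hζ hNS hmS h P hx.2⟩

end Poly

end Fermat.Agent.GB.A.A5.HeckeKerRed
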