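/-
GATE-B (S38/S43) / CASE A / node A5 "abelian part dies", leaf L3 (helper42).

LEVEL `N' q`, `q ∤ N'`, `A` a place of `ℚ̄` over `q`, `m ≥ 1` prime to `q`.

`exists_sub_aUp_mem_kerRed` : a class `[u] ∈ Kum_m(F_{N'q})` with a representative `u` that is a
unit of the first Gauss valuation `w₁` whose reduction `ū₁ ∈ FresBar (N' q) A = FresBar N' A`
is `m`-DIVISIBLE (all orders divisible by `m`: the output of node A4) differs from a class pulled
back from the good level `N'` by an element of `ker r₁ = kerRed (N' q) A m`: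

    `∃ x₁ ∈ Kum_m(F_{N'}),  [u] − α^* x₁ ∈ kerRed (N' q) A m`.

Proof: `ū₁` lifts to an `m`-divisible Gauss unit `u₁` of `F_{N'}` with `red u₁ = ū₁` EXACTLY
(helper19 `GB/A/K2Gen/Bar.exists_lift_unit_bar`, torsion lifting from the UPFV pair theorem), the
Gauss valuation of level `N' q` restricts to that of level `N'` with the same reduction (helper15
`GK/QS/OldRed`), so `u / α u₁` is a principal unit.

* `k1Stmt` : helper56's `WCopy.K1Stmt A m` (the only open binder of `AbHypPlug.abHyp_of_k1Stmt`);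
* `abHyp`  : **node A5 closed**: helper28's `FP.AbHyp h A m t` for every old-killer
  `t = P(T^{N' q})`, `P(T^{N'}) = 0`.
-/
import Mathlib
import Fermat.Agent.GB.A.K2Gen.Bar
import Fermat.Agent.GB.A.A5.AbHypPlug
import Fermat.Agent.GK.Flat.PsiFNGood
import Fermat.Agent.GK.QS.OldRed
import Fermat.Agent.GK.UqKronecker
import Fermat.Agent.GK.UTr.KumAlpha

set_option autoImplicit false
set_option synthInstance.maxHeartbeats 400000
set_option maxHeartbeats 1000000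

noncomputable section

open AlgebraicCurve ModularCurve IsLocalRing

namespace Fermat.Agent.GB.A.A5.KerRedUp

open Fermat.Agent.S24 Fermat.Agent.GJ.J1 Fermat.Agent.GJ.J1.Val Fermat.Agent.GJ.HN
  Fermat.Agent.GJ.KumGroup Fermat.Agent.GJ.Kum.KumType Fermat.Agent.GH.Inst
  Fermat.Agent.GK.AL Fermat.Agent.GK.UqKronecker Fermat.Agent.GK.UTr Fermat.Agent.GK.PsiFNGood
  Fermat.Agent.GK.QS Fermat.Agent.GK.New Fermat.Agent.GK.Tate.KumHecke
  Fermat.Agent.GB.A.FP Fermat.Agent.GB.A.A5.WCopy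

/-! ### units of the Gauss ring of a reduction datum -/

section Units

variable {K F k Ft : Type*} [Field K] [Field F] [Algebra K F] [Field k] [Field Ft] [Algebra k Ft]
  {R : RedData K F k Ft}

/-- an element of `Rw` with non-zero reduction is non-zero. -/
theorem coe_ne_zero_of_red_ne_zero {x : R.Rw} (hx : R.red x ≠ 0) : (x : F) ≠ 0 := by
  intro h
  have : x = 0 := Subtype.ext h
  rw [this, map_zero] at hx
  exact hx rfl

/-- an element of `Rw` with non-zero reduction is a unit of `Rw`. -/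
theorem inv_mem_of_red_ne_zero (x : R.Rw) (hx : R.red x ≠ 0) : ((x : F))⁻¹ ∈ R.Rw := by
  have h1 : x ∉ IsLocalRing.maximalIdeal R.Rw := fun hm => hx ((R.red_eq_zero_iff _).mpr hm)
  rw [IsLocalRing.mem_maximalIdeal, mem_nonunits_iff, not_not] at h1
  obtain ⟨v, hv⟩ := h1.exists_right_inv
  have hv' : (x : F) * (v : F) = 1 := congrArg Subtype.val hv
  rw [← eq_inv_of_mul_eq_one_right hv']
  exact v.2

theorem red_inv_of_red_ne_zero (x : R.Rw) (hx : R.red x ≠ 0) (h : ((x : F))⁻¹ ∈ R.Rw) :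
    R.red ⟨((x : F))⁻¹, h⟩ = (R.red x)⁻¹ := by
  have h1 : x * ⟨((x : F))⁻¹, h⟩ = 1 :=
    Subtype.ext (mul_inv_cancel₀ (coe_ne_zero_of_red_ne_zero hx))
  have h2 := congrArg R.red h1
  rw [map_mul, map_one] at h2
  exact eq_inv_of_mul_eq_one_right h2

end Units

/-! ### divisibility of orders along an equality of intermediate fields -/

section Eq

variable {k L : Type*} [Field k] [Field L] [Algebra k L]

/-- "all orders divisible by `m`" does not depend on the name of the intermediate field. -/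
theorem forall_dvd_ord_of_eq {S T : IntermediateField k L} (h : S = T) (m : ℤ) (x : L)
    (hxS : x ∈ S) (hxT : x ∈ T)
    (hx : ∀ Q : Place k S, m ∣ Q.ord (⟨x, hxS⟩ : S)) :
    ∀ Q : Place k T, m ∣ Q.ord (⟨x, hxT⟩ : T) := by
  subst h
  exact hx

end Eq

variable {q : ℕ} [NeZero q] (A : ValuationSubring Kbar) (hA : A.LiesOverPrime q)
variable (N' : ℕ) [NeZero N'] [NeZero (N' * q)] (h' : ExactDvd q (N' * q))

local notation "𝕜" => ResidueField A

include hA h' in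
/-- **the class of a `w₁`-unit with `m`-divisible reduction is, modulo `ker r₁`, pulled back from
the good level.** -/
theorem exists_sub_aUp_mem_kerRed (h2 : q = 2 → 3 ∣ N') (h3 : q = 3 → 2 ∣ N') {m : ℕ}
    (hm : 1 ≤ m) (hqm : ¬ q ∣ m) (u : pDivUnits Kb (FK (N' * q)) m)
    (h1 : ((u : (FK (N' * q))ˣ) : FK (N' * q)) ∈ (redDataBar (N' * q) A).Rw)
    (hr : (redDataBar (N' * q) A).red ⟨((u : (FK (N' * q))ˣ) : FK (N' * q)), h1⟩ ≠ 0)
    (hd : ∀ Q : Place 𝕜 (FresBar (N' * q) A),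
      (m : ℤ) ∣ Q.ord ((redDataBar (N' * q) A).red ⟨((u : (FK (N' * q))ˣ) : FK (N' * q)), h1⟩)) :
    ∃ x₁ : Additive (Kum Kb (FK N') m),
      Additive.ofMul (Kum.mk u) - aUp N' q m x₁ ∈ kerRed (N' * q) A m := by
  have hq : q.Prime := h'.prime
  have hqN' : ¬ q ∣ N' := not_dvd_good N' h'
  set ub : FresBar (N' * q) A :=
    (redDataBar (N' * q) A).red ⟨((u : (FK (N' * q))ˣ) : FK (N' * q)), h1⟩ with hub_def
  -- transport to the residue field of the good level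
  have hEq : FresBar (N' * q) A = FresBar N' A := FresBar_mul_eq A hA N' h'
  have hubT : (ub : LaurentSeries 𝕜) ∈ FresBar N' A := hEq ▸ ub.2
  set ub' : FresBar N' A := ⟨(ub : LaurentSeries 𝕜), hubT⟩ with hub'_def
  have hubL : (ub : LaurentSeries 𝕜) ≠ 0 := fun h => hr (ZeroMemClass.coe_eq_zero.mp h)
  have hub'0 : ub' ≠ 0 := fun h0 => hubL ((ZeroMemClass.coe_eq_zero (x := ub')).mpr h0)
  have hd' : ∀ Q : Place 𝕜 (FresBar N' A), (m : ℤ) ∣ Q.ord ub' :=
    forall_dvd_ord_of_eq hEq (m : ℤ) (ub : LaurentSeries 𝕜) ub.2 hubT hd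
  -- the lift at the good level
  obtain ⟨v₁, hred₁', hdiv₁⟩ :=
    Fermat.Agent.GB.A.K2Gen.Bar.exists_lift_unit_bar N' A hq hqN' h2 h3 hA hm hqm hub'0 hd'
  have hv₁0 : ((v₁ : (redDataBar N' A).Rw) : FK N') ≠ 0 :=
    coe_ne_zero_of_red_ne_zero (by rw [hred₁']; exact hub'0)
  set u₁ : pDivUnits Kb (FK N') m := ⟨Units.mk0 _ hv₁0, fun P => hdiv₁ P⟩ with hu₁_def
  have hu₁ : ((u₁ : (FK N')ˣ) : FK N') ∈ (redDataBar N' A).Rw := v₁.2
  have hred₁ : (redDataBar N' A).red ⟨((u₁ : (FK N')ˣ) : FK N'), hu₁⟩ = ub' := hred₁'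
  -- its pull-back to level `N' q`
  have hα : alphaB N' q ((u₁ : (FK N')ˣ) : FK N') ∈ (redDataBar (N' * q) A).Rw :=
    (alpha_mem_RwBar_iff N' q A _).mpr hu₁
  have hαred : (redDataBar (N' * q) A).red ⟨alphaB N' q ((u₁ : (FK N')ˣ) : FK N'), hα⟩ = ub := by
    apply Subtype.ext
    exact (coe_red_alpha N' q A ⟨((u₁ : (FK N')ˣ) : FK N'), hu₁⟩ hα).trans
      (congrArg (fun z : FresBar N' A => (z : LaurentSeries 𝕜)) hred₁)
  refine ⟨Additive.ofMul (Kum.mk u₁), ?_⟩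
  rw [aUp_mk]
  refine ofMul_sub_mem_kerRedW (W := RingEquiv.refl (FK (N' * q))) u
    ⟨alphaUnits N' q u₁, alphaUnits_mem N' q m u₁ u₁.2⟩ ?_
  show IsCPrin (hasGaussFrac_bar (N' * q) A)
    (((u : (FK (N' * q))ˣ) : FK (N' * q)) / alphaB N' q ((u₁ : (FK N')ˣ) : FK N'))
  refine IsPrin.isCPrin ?_
  -- `u / α u₁` is a principal unit
  have hαi : (alphaB N' q ((u₁ : (FK N')ˣ) : FK N'))⁻¹ ∈ (redDataBar (N' * q) A).Rw :=
    inv_mem_of_red_ne_zero (R := redDataBar (N' * q) A) ⟨_, hα⟩ (by rw [hαred]; exact hr)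
  have hmem : ((u : (FK (N' * q))ˣ) : FK (N' * q)) / alphaB N' q ((u₁ : (FK N')ˣ) : FK N') ∈
      (redDataBar (N' * q) A).Rw := by
    rw [div_eq_mul_inv]
    exact (redDataBar (N' * q) A).Rw.mul_mem _ _ h1 hαi
  refine ⟨hmem, ?_⟩
  have hred : (redDataBar (N' * q) A).red ⟨_, hmem⟩ = 1 := by
    have e : (⟨_, hmem⟩ : (redDataBar (N' * q) A).Rw) =
        ⟨((u : (FK (N' * q))ˣ) : FK (N' * q)), h1⟩ * ⟨_, hαi⟩ :=
      Subtype.ext (div_eq_mul_inv _ _)
    rw [e, map_mul,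
      red_inv_of_red_ne_zero (R := redDataBar (N' * q) A) ⟨_, hα⟩
        (by rw [hαred]; exact hr) hαi, hαred]
    exact mul_inv_cancel₀ hr
  have hred' := congrArg (fun z : FresBar (N' * q) A => (z : LaurentSeries 𝕜)) hred
  exact hred'

include hA h' in
/-- **helper56's `K1Stmt`** (the only open binder of `AbHypPlug.abHyp_of_k1Stmt`). -/
theorem k1Stmt (h2 : q = 2 → 3 ∣ N') (h3 : q = 3 → 2 ∣ N') {m : ℕ} (hm : 1 ≤ m)
    (hqm : ¬ q ∣ m) : K1Stmt A m (N' := N') (q := q) :=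
  fun u h1 hr hd => exists_sub_aUp_mem_kerRed A hA N' h' h2 h3 hm hqm u h1 hr hd

include hA in
/-- **NODE A5 CLOSED**: helper28's `FP.AbHyp` for every old-killer `t = P(T^{N' q})`,
`P(T^{N'}) = 0`: `t [u] ∈ ker r₁ ⊓ ker r₂` for every `m`-divisible unit `u` that is a unit of both
Gauss valuations with `m`-divisible reductions. -/
theorem abHyp (h2 : q = 2 → 3 ∣ N') (h3 : q = 3 → 2 ∣ N') (S : Finset ℕ) (m : ℕ) [NeZero m]
    (hqm : ¬ q ∣ m) {ζ : ℂ} (hζ : IsPrimitiveRoot ζ m)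
    (hN'S : ∀ r : ℕ, r.Prime → r ∣ N' → r ∈ S) (hMS : ∀ r : ℕ, r.Prime → r ∣ N' * q → r ∈ S)
    (hmS : ∀ r : ℕ, r.Prime → r ∣ m → r ∈ S)
    (P : MvPolynomial (PrimeIdx S) ℤ)
    (hP : MvPolynomial.aeval (TfamH (N' := N') (S := S) hN'S) P = 0) :
    AbHyp h' A m (kumHecke (N' * q) (↑S : Set ℕ) m hζ (MvPolynomial.aeval (TfamH hMS) P)) :=
  Fermat.Agent.GB.A.A5.AbHypPlug.abHyp_of_k1Stmt h' A S m
    (k1Stmt A hA N' h' h2 h3 (Nat.one_le_iff_ne_zero.mpr (NeZero.ne m)) hqm) hζ hN'S hMS hmS P hP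

end Fermat.Agent.GB.A.A5.KerRedUp
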