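/-
GATE-B / CASE A / GB-A5 leaf L5 (helper81).

UP-direction twin of `Fermat.Agent.GK.New.kumHecke_aeval_dies`: every integer polynomial in the
good Hecke operators `T_ℓ` (`ℓ ∉ S`) commutes with the degeneracy pull-back
`α^* = aUp N' q m : Kum_m (F_{N'}) → Kum_m (F_{N' q})`,

  `P (T^{N' q}) (α^* x) = α^* (P (T^{N'}) x)`.

Proof: helper86's Eichler–Shimura commutation trick (`UQ.TEnd_comp_of_gal_comm`) for the
Galois-equivariant (`UTr.aUp_gal`) linear map `α^*` gives the statement on the generators `T_ℓ`,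
and `GK/New/Intertwine.aeval_intertwine'` propagates it to all integer polynomials.

The same statement is given for an arbitrary Galois-equivariant `ZMod m`-linear map
`f : Kum_m (F_N) → Kum_m (F_M)` (`kumHecke_aeval_comm`), which is what leaf L6 needs for
`β^* = autEnd (wAut h).symm ∘ α^*`.
-/
import Mathlib
import Fermat.Agent.GK.New.OldKiller
import Fermat.Agent.GK.New.Intertwine
import Fermat.Agent.GK.New.KillerDies
import Fermat.Agent.GK.Tate.KumHecke
import Fermat.Agent.GK.UQ.ESComm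
import Fermat.Agent.GK.UTr.KumAlphaGal

set_option autoImplicit false

noncomputable section

namespace Fermat.Agent.GB.A.A5.L5

open CuspForm ModularFormClass CongruenceSubgroup
open Fermat.Agent.GJ Fermat.Agent.GJ.KumGroup Fermat.Agent.GJ.Kum.KumType
open Fermat.Agent.GK.Tate.KumHecke Fermat.Agent.GK.UQ Fermat.Agent.GK.UTr Fermat.Agent.GK.New

local notation "GQ'" => (AlgebraicClosure ℚ ≃ₐ[ℚ] AlgebraicClosure ℚ)

section Comm

variable {N M : ℕ} [NeZero N] [NeZero M] (S : Finset ℕ) (m : ℕ) [NeZero m] {ζ : ℂ}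

/-- **Integer polynomials in the good Hecke operators commute with every Galois-equivariant
linear map between Kummer groups of two levels** (levels `N`, `M` with all their primes, and those
of `m`, in `S`). -/
theorem kumHecke_aeval_comm (hζ : IsPrimitiveRoot ζ m)
    (hNS : ∀ q : ℕ, q.Prime → q ∣ N → q ∈ S) (hMS : ∀ q : ℕ, q.Prime → q ∣ M → q ∈ S)
    (hmS : ∀ q : ℕ, q.Prime → q ∣ m → q ∈ S)
    (f : Additive (Kum Kb (FK N) m) →ₗ[ZMod m] Additive (Kum Kb (FK M) m))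
    (hf : ∀ (σ : GQ') x, f (gal N m σ x) = gal M m σ (f x))
    (P : MvPolynomial (PrimeIdx S) ℤ)
    (x : Additive (Kum Kb (FK N) m)) :
    f (kumHecke N (↑S : Set ℕ) m hζ (MvPolynomial.aeval (TfamH hNS) P) x)
      = kumHecke M (↑S : Set ℕ) m hζ (MvPolynomial.aeval (TfamH hMS) P) (f x) := by
  have hm : 0 < m := Nat.pos_of_ne_zero (NeZero.ne m)
  -- the two actions as ring homs into `AddMonoid.End`
  let toAdd : ∀ (L : ℕ) [NeZero L],
      Module.End (ZMod m) (Additive (Kum Kb (FK L) m)) →+*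
        AddMonoid.End (Additive (Kum Kb (FK L) m)) := fun L _ =>
    { toFun := fun E => E.toAddMonoidHom
      map_one' := rfl
      map_mul' := fun _ _ => rfl
      map_zero' := rfl
      map_add' := fun _ _ => rfl }
  have key := aeval_intertwine'
    ((toAdd N).comp (kumHecke N (↑S : Set ℕ) m hζ))
    ((toAdd M).comp (kumHecke M (↑S : Set ℕ) m hζ))
    f.toAddMonoidHom (TfamH hNS) (TfamH (N' := M) (S := S) hMS) ?_ P x
  · exact key
  · intro i y
    have hnd : ∀ {L : ℕ}, (∀ q : ℕ, q.Prime → q ∣ L → q ∈ S) → ¬ i.1 ∣ L * m := by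
      intro L hLS h
      rcases (Nat.Prime.dvd_mul i.2.1).mp h with h | h
      · exact i.2.2 (hLS _ i.2.1 h)
      · exact i.2.2 (hmS _ i.2.1 h)
    show f (kumHecke N (↑S : Set ℕ) m hζ (TfamH hNS i) y)
      = kumHecke M (↑S : Set ℕ) m hζ (TfamH hMS i) (f y)
    rw [kumHecke_TfamH S m hζ hNS i, kumHecke_TfamH S m hζ hMS i]
    exact TEnd_comp_of_gal_comm N M m hm i.2.1 (hnd hNS) (hnd hMS) f hf y

end Comm

section Up

variable {N' q : ℕ} [NeZero N'] [NeZero q] (S : Finset ℕ) (m : ℕ) [NeZero m] {ζ : ℂ}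

/-- **GB-A5-L5**: `P (T^{N' q}) ∘ α^* = α^* ∘ P (T^{N'})` on `Kum_m (F_{N'})`. -/
theorem kumHecke_aeval_aUp (hζ : IsPrimitiveRoot ζ m)
    (hMS : ∀ q' : ℕ, q'.Prime → q' ∣ N' * q → q' ∈ S)
    (hN'S : ∀ q' : ℕ, q'.Prime → q' ∣ N' → q' ∈ S)
    (hmS : ∀ q' : ℕ, q'.Prime → q' ∣ m → q' ∈ S)
    (P : MvPolynomial (PrimeIdx S) ℤ)
    (x : Additive (Kum Kb (FK N') m)) :
    kumHecke (N' * q) (↑S : Set ℕ) m hζ (MvPolynomial.aeval (TfamH hMS) P) (aUp N' q m x)
      = aUp N' q m (kumHecke N' (↑S : Set ℕ) m hζ (MvPolynomial.aeval (TfamH hN'S) P) x) :=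
  (kumHecke_aeval_comm S m hζ hN'S hMS hmS (aUp N' q m)
    (fun σ y => aUp_gal N' q m σ y) P x).symm

/-- the hypothesis on `N'` follows from that on `N' * q` -/
theorem kumHecke_aeval_aUp' (hζ : IsPrimitiveRoot ζ m)
    (hMS : ∀ q' : ℕ, q'.Prime → q' ∣ N' * q → q' ∈ S)
    (hmS : ∀ q' : ℕ, q'.Prime → q' ∣ m → q' ∈ S)
    (P : MvPolynomial (PrimeIdx S) ℤ)
    (x : Additive (Kum Kb (FK N') m)) :
    kumHecke (N' * q) (↑S : Set ℕ) m hζ (MvPolynomial.aeval (TfamH hMS) P) (aUp N' q m x)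
      = aUp N' q m (kumHecke N' (↑S : Set ℕ) m hζ
          (MvPolynomial.aeval
            (TfamH (N' := N') (S := S) (fun q' hq' h => hMS q' hq' (Dvd.dvd.mul_right h q))) P) x) :=
  kumHecke_aeval_aUp S m hζ hMS _ hmS P x

end Up

end Fermat.Agent.GB.A.A5.L5
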