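/-
GATE-B / CASE A / node A5, leaf L6 (helper56; split of helper42, board 5187): the `W`-symmetric copy.

`M = N' q`, `q ∥ M`, `W = W_q = wAut h` the Atkin–Lehner involution of `F_M`, `w₂ = w₁ ∘ W`.

* `kumHecke_aeval_comp_of_gal` : EVERY Galois-equivariant linear map `f : Kum_m(F_{N'}) → Kum_m(F_M)`
  (any two levels) intertwines the integer polynomials in the `T_ℓ`, `ℓ ∉ S`
  (Eichler–Shimura trick `TEnd_comp_of_gal_comm` + `aeval_intertwine'`) — the UP-direction twin of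
  `GK/New/KillerDies.kumHecke_aeval_dies`;
* `bUp h m := W ∘ α^*` (`β^*`), `bUp_gal`, `autEnd_wAut_bUp`, `kumHecke_aeval_bUp`,
  `kumHecke_aeval_aUp`;
* `sub_bUp_mem_kerRed₂_iff` : `[u] − β^* x ∈ ker r₂ ↔ [W u] − α^* x ∈ ker r₁`;
* `K1Stmt`, `K2Stmt`, `k2Stmt_of_k1Stmt` : the statement-level mirror (L3 for `w₁` ⟹ L3 for `w₂`),
  the hypotheses on `u` in the `redData2` frame being DEFINITIONALLY those on `W u` in the
  `redDataBar` frame;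
* `aeval_dies_of_sub_mem` : the abstract core of L7 — `y − f x₁ ∈ H`, `H` stable under the `T_ℓ`,
  `f` Galois-equivariant from level `N'`, `P(T^{N'}) = 0` ⟹ `P(T^M) y ∈ H`;
  `aeval_dies_kerRed`, `aeval_dies_kerRed₂`, `aeval_dies_inf` : the two halves for `α^*`, `β^*`.
-/
import Mathlib
import Fermat.Agent.GK.UTr.TRInst
import Fermat.Agent.GK.AL.SecondVal
import Fermat.Agent.GK.New.KillerDies
import Fermat.Agent.GB.A.A5.HeckeKerRed

set_option autoImplicit false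

noncomputable section

namespace Fermat.Agent.GB.A.A5.WCopy

open AlgebraicCurve
open Fermat.Agent.GJ Fermat.Agent.GJ.KumGroup Fermat.Agent.GJ.Kum.KumType
open Fermat.Agent.GJ.J1 Fermat.Agent.GJ.J1.Val
open Fermat.Agent.GK.UqKronecker Fermat.Agent.GK.UQ Fermat.Agent.GK.New Fermat.Agent.GK.UTr
open Fermat.Agent.GK.AL Fermat.Agent.GK.Tate.KumHecke
open Fermat.Agent.GB.A.A5.HeckeKerRed

local notation "GQ'" => (AlgebraicClosure ℚ ≃ₐ[ℚ] AlgebraicClosure ℚ)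

/-! ### Galois-equivariant maps intertwine the Hecke polynomials (any two levels) -/

section Intertwine

variable {N' M : ℕ} [NeZero N'] [NeZero M] (S : Finset ℕ) (m : ℕ) [NeZero m] {ζ : ℂ}

/-- **`f ∘ P(T^{N'}) = P(T^M) ∘ f`** for every Galois-equivariant `ZMod m`-linear map
`f : Kum_m(F_{N'}) → Kum_m(F_M)` and every integer polynomial `P` in the `T_ℓ`,
`ℓ ∉ S ⊇ primes of N' M m`. -/
theorem kumHecke_aeval_comp_of_gal (hζ : IsPrimitiveRoot ζ m)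
    (hN'S : ∀ q : ℕ, q.Prime → q ∣ N' → q ∈ S) (hMS : ∀ q : ℕ, q.Prime → q ∣ M → q ∈ S)
    (hmS : ∀ q : ℕ, q.Prime → q ∣ m → q ∈ S)
    (f : Additive (Kum Kb (FK N') m) →ₗ[ZMod m] Additive (Kum Kb (FK M) m))
    (hf : ∀ (σ : GQ') x, f (gal N' m σ x) = gal M m σ (f x))
    (P : MvPolynomial (PrimeIdx S) ℤ) (x : Additive (Kum Kb (FK N') m)) :
    f (kumHecke N' (↑S : Set ℕ) m hζ (MvPolynomial.aeval (TfamH hN'S) P) x) =
      kumHecke M (↑S : Set ℕ) m hζ (MvPolynomial.aeval (TfamH hMS) P) (f x) := by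
  have hm : 0 < m := Nat.pos_of_ne_zero (NeZero.ne m)
  let toAdd : ∀ (L : ℕ) [NeZero L],
      Module.End (ZMod m) (Additive (Kum Kb (FK L) m)) →+*
        AddMonoid.End (Additive (Kum Kb (FK L) m)) := fun L _ =>
    { toFun := fun E => E.toAddMonoidHom
      map_one' := rfl
      map_mul' := fun _ _ => rfl
      map_zero' := rfl
      map_add' := fun _ _ => rfl }
  have key := aeval_intertwine'
    ((toAdd N').comp (kumHecke N' (↑S : Set ℕ) m hζ))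
    ((toAdd M).comp (kumHecke M (↑S : Set ℕ) m hζ))
    f.toAddMonoidHom (TfamH hN'S) (TfamH (N' := M) (S := S) hMS) ?_ P x
  · exact key
  · intro i y
    have hnd : ∀ {L : ℕ}, (∀ q : ℕ, q.Prime → q ∣ L → q ∈ S) → ¬ i.1 ∣ L * m := by
      intro L hLS h
      rcases (Nat.Prime.dvd_mul i.2.1).mp h with h | h
      · exact i.2.2 (hLS _ i.2.1 h)
      · exact i.2.2 (hmS _ i.2.1 h)
    show f (kumHecke N' (↑S : Set ℕ) m hζ (TfamH hN'S i) y)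
      = kumHecke M (↑S : Set ℕ) m hζ (TfamH hMS i) (f y)
    rw [kumHecke_TfamH S m hζ hN'S i, kumHecke_TfamH S m hζ hMS i]
    exact TEnd_comp_of_gal_comm N' M m hm i.2.1 (hnd hN'S) (hnd hMS) f hf y

/-- **abstract core of L7**: `y − f x₁ ∈ H` with `H` stable under the `T_ℓ` (`ℓ ∉ S`), `f`
Galois-equivariant from level `N'`, and `P(T^{N'}) = 0`  ⟹  `P(T^M) y ∈ H`. -/
theorem aeval_dies_of_sub_mem (hζ : IsPrimitiveRoot ζ m)
    (hN'S : ∀ q : ℕ, q.Prime → q ∣ N' → q ∈ S) (hMS : ∀ q : ℕ, q.Prime → q ∣ M → q ∈ S)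
    (hmS : ∀ q : ℕ, q.Prime → q ∣ m → q ∈ S)
    (f : Additive (Kum Kb (FK N') m) →ₗ[ZMod m] Additive (Kum Kb (FK M) m))
    (hf : ∀ (σ : GQ') x, f (gal N' m σ x) = gal M m σ (f x))
    (H : AddSubgroup (Additive (Kum Kb (FK M) m)))
    (hH : ∀ (i : PrimeIdx S) (x : Additive (Kum Kb (FK M) m)), x ∈ H →
      kumTl M m i.2.1 (PrimeIdx.not_dvd hMS i) x ∈ H)
    (P : MvPolynomial (PrimeIdx S) ℤ)
    (hP : MvPolynomial.aeval (TfamH (N' := N') (S := S) hN'S) P = 0)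
    {y : Additive (Kum Kb (FK M) m)} {x₁ : Additive (Kum Kb (FK N') m)}
    (hy : y - f x₁ ∈ H) :
    kumHecke M (↑S : Set ℕ) m hζ (MvPolynomial.aeval (TfamH hMS) P) y ∈ H := by
  have h1 := kumHecke_aeval_mem_of_stable S m hζ hMS H hH P hy
  have h2 := kumHecke_aeval_comp_of_gal S m hζ hN'S hMS hmS f hf P x₁
  rw [hP, _root_.map_zero, LinearMap.zero_apply, _root_.map_zero] at h2
  rwa [_root_.map_sub, ← h2, sub_zero] at h1

end Intertwine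

/-! ### `β^* := W_q ∘ α^*` -/

section BUp

variable {N' q : ℕ} [NeZero N'] [NeZero q] (h : ExactDvd q (N' * q)) (m : ℕ)

/-- **`β^* := W_q ∘ α^*`** : `Kum_m(F_{N'}) → Kum_m(F_{N' q})` -/
def bUp : Additive (Kum Kb (FK N') m) →ₗ[ZMod m] Additive (Kum Kb (FK (N' * q)) m) :=
  (autEnd (wAut h : FK (N' * q) ≃ₐ[Kb] FK (N' * q)) m).comp (aUp N' q m)

theorem bUp_apply (x : Additive (Kum Kb (FK N') m)) :
    bUp h m x = autEnd (wAut h : FK (N' * q) ≃ₐ[Kb] FK (N' * q)) m (aUp N' q m x) := rfl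

/-- **`β^*` commutes with the Galois action** -/
theorem bUp_gal (σ : GQ') (x : Additive (Kum Kb (FK N') m)) :
    bUp h m (gal N' m σ x) = gal (N' * q) m σ (bUp h m x) := by
  rw [bUp_apply, bUp_apply, aUp_gal, autEnd_wAut_gal]

/-- `W_q ∘ β^* = α^*` (`W_q` is an involution) -/
theorem autEnd_wAut_bUp (x : Additive (Kum Kb (FK N') m)) :
    autEnd (wAut h : FK (N' * q) ≃ₐ[Kb] FK (N' * q)) m (bUp h m x) = aUp N' q m x := by
  rw [bUp_apply, autEnd_wAut_autEnd_wAut]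

variable (S : Finset ℕ) [NeZero m] {ζ : ℂ}

/-- **L5 shape for `α^*`** (corollary of the generic intertwining). -/
theorem kumHecke_aeval_aUp (hζ : IsPrimitiveRoot ζ m)
    (hN'S : ∀ r : ℕ, r.Prime → r ∣ N' → r ∈ S) (hMS : ∀ r : ℕ, r.Prime → r ∣ N' * q → r ∈ S)
    (hmS : ∀ r : ℕ, r.Prime → r ∣ m → r ∈ S)
    (P : MvPolynomial (PrimeIdx S) ℤ) (x : Additive (Kum Kb (FK N') m)) :
    kumHecke (N' * q) (↑S : Set ℕ) m hζ (MvPolynomial.aeval (TfamH hMS) P) (aUp N' q m x) =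
      aUp N' q m (kumHecke N' (↑S : Set ℕ) m hζ (MvPolynomial.aeval (TfamH hN'S) P) x) :=
  (kumHecke_aeval_comp_of_gal S m hζ hN'S hMS hmS (aUp N' q m)
    (fun σ y => aUp_gal N' q m σ y) P x).symm

/-- **L5 shape for `β^*`**. -/
theorem kumHecke_aeval_bUp (hζ : IsPrimitiveRoot ζ m)
    (hN'S : ∀ r : ℕ, r.Prime → r ∣ N' → r ∈ S) (hMS : ∀ r : ℕ, r.Prime → r ∣ N' * q → r ∈ S)
    (hmS : ∀ r : ℕ, r.Prime → r ∣ m → r ∈ S)
    (P : MvPolynomial (PrimeIdx S) ℤ) (x : Additive (Kum Kb (FK N') m)) :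
    kumHecke (N' * q) (↑S : Set ℕ) m hζ (MvPolynomial.aeval (TfamH hMS) P) (bUp h m x) =
      bUp h m (kumHecke N' (↑S : Set ℕ) m hζ (MvPolynomial.aeval (TfamH hN'S) P) x) :=
  (kumHecke_aeval_comp_of_gal S m hζ hN'S hMS hmS (bUp h m)
    (fun σ y => bUp_gal h m σ y) P x).symm

end BUp

/-! ### the transport `ker r₁ ↔ ker r₂` -/

section Transport

variable {N' q : ℕ} [NeZero N'] [NeZero q] (h : ExactDvd q (N' * q))
  (A : ValuationSubring Kb) (m : ℕ)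

/-- `W_q` on `m`-divisible units -/
def wUnit (u : pDivUnits Kb (FK (N' * q)) m) : pDivUnits Kb (FK (N' * q)) m :=
  ⟨autUnits (wAut h : FK (N' * q) ≃ₐ[Kb] FK (N' * q)) u,
    autUnits_mem (wAut h : FK (N' * q) ≃ₐ[Kb] FK (N' * q)) m u u.2⟩

@[simp] theorem coe_wUnit (u : pDivUnits Kb (FK (N' * q)) m) :
    (((wUnit h m u : pDivUnits Kb (FK (N' * q)) m) : (FK (N' * q))ˣ) : FK (N' * q)) =
      wAut h (((u : (FK (N' * q))ˣ) : FK (N' * q))) := rfl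

theorem autEnd_wAut_mk (u : pDivUnits Kb (FK (N' * q)) m) :
    autEnd (wAut h : FK (N' * q) ≃ₐ[Kb] FK (N' * q)) m (Additive.ofMul (Kum.mk u)) =
      Additive.ofMul (Kum.mk (wUnit h m u)) := rfl

/-- **`[u] − β^* x ∈ ker r₂ ↔ [W u] − α^* x ∈ ker r₁`.** -/
theorem sub_bUp_mem_kerRed₂_iff (u : pDivUnits Kb (FK (N' * q)) m)
    (x : Additive (Kum Kb (FK N') m)) :
    Additive.ofMul (Kum.mk u) - bUp h m x ∈ kerRed₂ h A m ↔
      Additive.ofMul (Kum.mk (wUnit h m u)) - aUp N' q m x ∈ kerRed (N' * q) A m := by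
  rw [mem_kerRed₂_iff, _root_.map_sub, autEnd_wAut_bUp, autEnd_wAut_mk]

/-- the **K1 statement** (helper42's L3 conclusion, `w₁` frame): a unit `u` of `F_{N' q}` with
`m`-divisible divisor, `w₁(u) = 0` and `red₁ u` of `m`-divisible divisor differs from some `α^* x₁`
by an element of `ker r₁`. -/
def K1Stmt : Prop :=
  ∀ (u : pDivUnits Kb (FK (N' * q)) m)
    (h1 : ((u : (FK (N' * q))ˣ) : FK (N' * q)) ∈ (redDataBar (N' * q) A).Rw),
    (redDataBar (N' * q) A).red ⟨_, h1⟩ ≠ 0 →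
    (∀ Q : Place (IsLocalRing.ResidueField A) (FresBar (N' * q) A),
      (m : ℤ) ∣ Q.ord ((redDataBar (N' * q) A).red ⟨_, h1⟩)) →
    ∃ x₁ : Additive (Kum Kb (FK N') m),
      Additive.ofMul (Kum.mk u) - aUp N' q m x₁ ∈ kerRed (N' * q) A m

/-- the **K2 statement** (`w₂ = w₁ ∘ W_q` frame, `β^*` in place of `α^*`). -/
def K2Stmt : Prop :=
  ∀ (u : pDivUnits Kb (FK (N' * q)) m)
    (h2 : ((u : (FK (N' * q))ˣ) : FK (N' * q)) ∈ (redData2 (N' * q) A h).Rw),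
    (redData2 (N' * q) A h).red ⟨_, h2⟩ ≠ 0 →
    (∀ Q : Place (IsLocalRing.ResidueField A) (FresBar (N' * q) A),
      (m : ℤ) ∣ Q.ord ((redData2 (N' * q) A h).red ⟨_, h2⟩)) →
    ∃ x₁ : Additive (Kum Kb (FK N') m),
      Additive.ofMul (Kum.mk u) - bUp h m x₁ ∈ kerRed₂ h A m

/-- **L6, statement level**: K1 ⟹ K2 (apply K1 to `W u`; `red₂ u = red₁ (W u)` by definition). -/
theorem k2Stmt_of_k1Stmt (hK1 : K1Stmt A m (N' := N') (q := q)) : K2Stmt h A m := by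
  intro u h2 hr2 hd2
  obtain ⟨x₁, hx₁⟩ := hK1 (wUnit h m u) h2 hr2 hd2
  exact ⟨x₁, (sub_bUp_mem_kerRed₂_iff h A m u x₁).mpr hx₁⟩

end Transport

/-! ### the two halves of L7 -/

section Dies

variable {N' q : ℕ} [NeZero N'] [NeZero q] (h : ExactDvd q (N' * q))
  (A : ValuationSubring Kb) (S : Finset ℕ) (m : ℕ) [NeZero m] {ζ : ℂ}

/-- `w₁`-half: `y − α^* x₁ ∈ ker r₁`, `P(T^{N'}) = 0` ⟹ `P(T^{N' q}) y ∈ ker r₁`. -/
theorem aeval_dies_kerRed (hζ : IsPrimitiveRoot ζ m)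
    (hN'S : ∀ r : ℕ, r.Prime → r ∣ N' → r ∈ S) (hMS : ∀ r : ℕ, r.Prime → r ∣ N' * q → r ∈ S)
    (hmS : ∀ r : ℕ, r.Prime → r ∣ m → r ∈ S)
    (P : MvPolynomial (PrimeIdx S) ℤ)
    (hP : MvPolynomial.aeval (TfamH (N' := N') (S := S) hN'S) P = 0)
    {y : Additive (Kum Kb (FK (N' * q)) m)} {x₁ : Additive (Kum Kb (FK N') m)}
    (hy : y - aUp N' q m x₁ ∈ kerRed (N' * q) A m) :
    kumHecke (N' * q) (↑S : Set ℕ) m hζ (MvPolynomial.aeval (TfamH hMS) P) y ∈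
      kerRed (N' * q) A m :=
  aeval_dies_of_sub_mem S m hζ hN'S hMS hmS (aUp N' q m) (fun σ x => aUp_gal N' q m σ x) _
    (fun i _ hx => kumTl_mem_kerRed m i.2.1 (PrimeIdx.not_dvd hMS i) hx) P hP hy

/-- `w₂`-half: `y − β^* x₁ ∈ ker r₂`, `P(T^{N'}) = 0` ⟹ `P(T^{N' q}) y ∈ ker r₂`. -/
theorem aeval_dies_kerRed₂ (hζ : IsPrimitiveRoot ζ m)
    (hN'S : ∀ r : ℕ, r.Prime → r ∣ N' → r ∈ S) (hMS : ∀ r : ℕ, r.Prime → r ∣ N' * q → r ∈ S)
    (hmS : ∀ r : ℕ, r.Prime → r ∣ m → r ∈ S)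
    (P : MvPolynomial (PrimeIdx S) ℤ)
    (hP : MvPolynomial.aeval (TfamH (N' := N') (S := S) hN'S) P = 0)
    {y : Additive (Kum Kb (FK (N' * q)) m)} {x₁ : Additive (Kum Kb (FK N') m)}
    (hy : y - bUp h m x₁ ∈ kerRed₂ h A m) :
    kumHecke (N' * q) (↑S : Set ℕ) m hζ (MvPolynomial.aeval (TfamH hMS) P) y ∈
      kerRed₂ h A m := by
  have hm : 0 < m := Nat.pos_of_ne_zero (NeZero.ne m)
  refine aeval_dies_of_sub_mem S m hζ hN'S hMS hmS (bUp h m) (fun σ x => bUp_gal h m σ x) _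
    (fun i x hx => ?_) P hP hy
  have hnd : ¬ i.1 ∣ N' * q * m := by
    intro hd
    rcases (Nat.Prime.dvd_mul i.2.1).mp hd with hd | hd
    · exact i.2.2 (hMS _ i.2.1 hd)
    · exact i.2.2 (hmS _ i.2.1 hd)
  exact kumTl_mem_kerRed₂ m hm h i.2.1 hnd hx

/-- **L7 from K1 + K2** (both halves): a class `[u]` with `[u] − α^* x₁ ∈ ker r₁` and
`[u] − β^* x₂ ∈ ker r₂` is sent into `ker r₁ ⊓ ker r₂` by every `P(T^{N' q})` with
`P(T^{N'}) = 0`. -/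
theorem aeval_dies_inf (hζ : IsPrimitiveRoot ζ m)
    (hN'S : ∀ r : ℕ, r.Prime → r ∣ N' → r ∈ S) (hMS : ∀ r : ℕ, r.Prime → r ∣ N' * q → r ∈ S)
    (hmS : ∀ r : ℕ, r.Prime → r ∣ m → r ∈ S)
    (P : MvPolynomial (PrimeIdx S) ℤ)
    (hP : MvPolynomial.aeval (TfamH (N' := N') (S := S) hN'S) P = 0)
    {y : Additive (Kum Kb (FK (N' * q)) m)} {x₁ x₂ : Additive (Kum Kb (FK N') m)}
    (hy1 : y - aUp N' q m x₁ ∈ kerRed (N' * q) A m)
    (hy2 : y - bUp h m x₂ ∈ kerRed₂ h A m) :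
    kumHecke (N' * q) (↑S : Set ℕ) m hζ (MvPolynomial.aeval (TfamH hMS) P) y ∈
      kerRed (N' * q) A m ⊓ kerRed₂ h A m :=
  ⟨aeval_dies_kerRed A S m hζ hN'S hMS hmS P hP hy1,
    aeval_dies_kerRed₂ h A S m hζ hN'S hMS hmS P hP hy2⟩

/-- **`abelian_part_dies` from K1 alone** (helper42's L7 top statement, with L3 = `K1Stmt` as the
only binder): `u` an `m`-divisible unit of `F_{N' q}` which is a unit for both Gauss valuations
with reductions of `m`-divisible divisor ⟹ `P(T^{N' q}) [u] ∈ ker r₁ ⊓ ker r₂` whenever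
`P(T^{N'}) = 0`. -/
theorem abelian_part_dies_of_k1Stmt (hK1 : K1Stmt A m (N' := N') (q := q))
    (hζ : IsPrimitiveRoot ζ m)
    (hN'S : ∀ r : ℕ, r.Prime → r ∣ N' → r ∈ S) (hMS : ∀ r : ℕ, r.Prime → r ∣ N' * q → r ∈ S)
    (hmS : ∀ r : ℕ, r.Prime → r ∣ m → r ∈ S)
    (u : pDivUnits Kb (FK (N' * q)) m)
    (h1 : ((u : (FK (N' * q))ˣ) : FK (N' * q)) ∈ (redDataBar (N' * q) A).Rw)
    (h2 : ((u : (FK (N' * q))ˣ) : FK (N' * q)) ∈ (redData2 (N' * q) A h).Rw)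
    (hr1 : (redDataBar (N' * q) A).red ⟨_, h1⟩ ≠ 0)
    (hr2 : (redData2 (N' * q) A h).red ⟨_, h2⟩ ≠ 0)
    (hd1 : ∀ Q : Place (IsLocalRing.ResidueField A) (FresBar (N' * q) A),
      (m : ℤ) ∣ Q.ord ((redDataBar (N' * q) A).red ⟨_, h1⟩))
    (hd2 : ∀ Q : Place (IsLocalRing.ResidueField A) (FresBar (N' * q) A),
      (m : ℤ) ∣ Q.ord ((redData2 (N' * q) A h).red ⟨_, h2⟩))
    (P : MvPolynomial (PrimeIdx S) ℤ)
    (hP : MvPolynomial.aeval (TfamH (N' := N') (S := S) hN'S) P = 0) :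
    kumHecke (N' * q) (↑S : Set ℕ) m hζ (MvPolynomial.aeval (TfamH hMS) P)
        (Additive.ofMul (Kum.mk u)) ∈ kerRed (N' * q) A m ⊓ kerRed₂ h A m := by
  obtain ⟨x₁, hx₁⟩ := hK1 u h1 hr1 hd1
  obtain ⟨x₂, hx₂⟩ := k2Stmt_of_k1Stmt h A m hK1 u h2 hr2 hd2
  exact aeval_dies_inf h A S m hζ hN'S hMS hmS P hP hx₁ hx₂

end Dies

end Fermat.Agent.GB.A.A5.WCopy
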